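import Fermat.Agent.SquarefreeShift.Main

/-!
# The numbers of shifted primes without an `r`-th power
-/

set_option autoImplicit false

noncomputable section

namespace FA.SquarefreeShift

open Finset Filter
open scoped Topology

open scoped Classical in
/-- The number of the primes. -/
def shiftCount (r : ℕ) (a : ℤ) (x : ℕ) : ℕ :=
  #((Icc 1 x).filter (fun p : ℕ => p.Prime ∧ IsPowFree r ((p : ℤ) + a).natAbs))

theorem shiftDensity_le_one {r : ℕ} (hr : 2 ≤ r) (m : ℕ) : shiftDensity r m ≤ 1 := by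
  refine le_of_tendsto' (tendsto_shiftProd hr m) fun k => prod_le_one (
    fun p hp => ?_) fun p hp => ?_
  all_goals
    rw [mem_filter, Nat.mem_primesBelow] at hp
    have h2 : (2 : ℝ) ≤ p := Nat.ofNat_le_cast.2 hp.1.2.two_le
    have h3 : (1 : ℝ) ≤ (p : ℝ) ^ (r - 1) * ((p : ℝ) - 1) :=
      one_le_mul_of_one_le_of_one_le (one_le_pow₀ (by linarith)) (by linarith)
  · rw [sub_nonneg, div_le_one (by linarith)]
    exact h3
  · exact sub_le_self _ (by positivity)

/-- **The count**, uniformly in the shift. -/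
theorem eventually_shiftCount {r : ℕ} (hr : 2 ≤ r) {ε : ℝ} (hε : 0 < ε) :
    ∀ᶠ x : ℕ in atTop, ∀ a : ℤ, a ≠ 0 → a.natAbs ≤ x →
      |(shiftCount r a x : ℝ) * Real.log x / x - shiftDensity r a.natAbs| ≤ ε := by
  classical
  obtain ⟨η, hη⟩ : ∃ η, η = min (1 / 4) (ε / 8) := ⟨_, rfl⟩
  have hη0 : 0 < η := hη ▸ lt_min (by norm_num) (by linarith)
  have hη1 : η ≤ 1 / 4 := hη ▸ min_le_left _ _
  have hη2 : η ≤ ε / 8 := hη ▸ min_le_right _ _
  filter_upwards [eventually_shiftSum hr (show 0 < ε / 4 by linarith),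
    Chen.eventually_power_saving (show 0 < ε / 4 by linarith) (show 1 - η < 1 by linarith) 1 1,
    eventually_ge_atTop 2] with x hx hpow hx2 a ha hax
  obtain ⟨L, hL⟩ : ∃ L, L = Real.log x := ⟨_, rfl⟩
  rw [← hL] at hpow ⊢
  rw [pow_one, one_mul] at hpow
  have hx0 : (0 : ℝ) < x := Nat.cast_pos.2 (by omega)
  have hL0 : 0 < L := hL ▸ Real.log_pos (Nat.one_lt_cast.2 (by omega))
  obtain ⟨S, hS⟩ : ∃ S, S = (Icc 1 x).filter
      (fun p : ℕ => p.Prime ∧ IsPowFree r ((p : ℤ) + a).natAbs) := ⟨_, rfl⟩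
  have hsum := abs_le.1 (hx a ha hax)
  rw [shiftSum, ← hS] at hsum
  rw [shiftCount, ← hS]
  have hup : ∑ p ∈ S, Real.log p ≤ #S * L := by
    refine (sum_le_card_nsmul _ _ L fun p hp => ?_).trans (le_of_eq (nsmul_eq_mul _ _))
    rw [hS, mem_filter, mem_Icc] at hp
    exact hL ▸ Real.log_le_log (Nat.cast_pos.2 hp.1.1) (Nat.cast_le.2 hp.1.2)
  have hlow : (1 - η) * (#S * L) ≤ ∑ p ∈ S, Real.log p + (x : ℝ) ^ (1 - η) * L := by
    obtain ⟨E, hE⟩ : ∃ E, E = S.filter (fun p : ℕ => (p : ℝ) ≤ (x : ℝ) ^ (1 - η)) := ⟨_, rfl⟩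
    have h1 : (#E : ℝ) ≤ (x : ℝ) ^ (1 - η) := by
      refine (Nat.cast_le.2 (card_le_card (t := Icc 1 ⌊(x : ℝ) ^ (1 - η)⌋₊)
        fun p hp => ?_)).trans ?_
      · rw [hE, hS, mem_filter, mem_filter, mem_Icc] at hp
        exact mem_Icc.2 ⟨hp.1.1.1, Nat.le_floor hp.2⟩
      · rw [Nat.card_Icc, Nat.add_sub_cancel]
        exact Nat.floor_le (by positivity)
    have h2 : ((#S : ℝ) - #E) * ((1 - η) * L) ≤ ∑ p ∈ S, Real.log p := by
      rw [← card_filter_add_card_filter_not (s := S)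
          (p := fun p : ℕ => (p : ℝ) ≤ (x : ℝ) ^ (1 - η)),
        ← hE, Nat.cast_add, add_sub_cancel_left, ← nsmul_eq_mul]
      refine (card_nsmul_le_sum _ _ _ fun p hp => ?_).trans
        (sum_le_sum_of_subset_of_nonneg (filter_subset _ _) fun p _ _ => Real.log_natCast_nonneg p)
      rw [mem_filter, not_le] at hp
      rw [hL, ← Real.log_rpow hx0]
      exact Real.log_le_log (Real.rpow_pos_of_pos hx0 _) hp.2.le
    have h3 := mul_le_mul_of_nonneg_right h1 hL0.le
    have h4 : 0 ≤ (#E : ℝ) * L := by positivity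
    nlinarith
  have hS1 := shiftDensity_le_one hr a.natAbs
  have hS0 := quarter_le_shiftDensity hr a.natAbs
  rw [abs_le, le_sub_iff_add_le, sub_le_iff_le_add, le_div_iff₀ hx0, div_le_iff₀ hx0]
  constructor
  · nlinarith
  · refine le_of_mul_le_mul_left (hlow.trans ?_) (show 0 < 1 - η by linarith)
    have h5 : η * (ε + shiftDensity r a.natAbs) ≤ ε / 2 := by
      have := mul_le_mul_of_nonneg_right hη1 hε.le
      have := mul_le_mul_of_nonneg_left hS1 hη0.le
      rw [mul_add]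
      linarith
    nlinarith [mul_le_mul_of_nonneg_right h5 hx0.le]

theorem tendsto_shiftCount {r : ℕ} (hr : 2 ≤ r) {a : ℤ} (ha : a ≠ 0) :
    Tendsto (fun x : ℕ => (shiftCount r a x : ℝ) * Real.log x / x) atTop
      (𝓝 (shiftDensity r a.natAbs)) := by
  refine Metric.tendsto_nhds.2 fun ε hε => ?_
  filter_upwards [eventually_shiftCount hr (half_pos hε), eventually_ge_atTop a.natAbs]
    with x hx hax
  rw [Real.dist_eq]
  linarith [hx a ha hax]

theorem squarefree_iff_isPowFree (n : ℕ) : Squarefree n ↔ IsPowFree 2 n := by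
  simp only [Nat.squarefree_iff_prime_squarefree, IsPowFree, sq]

open scoped Classical in
theorem shiftCount_neg (r N : ℕ) :
    shiftCount r (-(N : ℤ)) N = #((range N).filter fun p : ℕ => p.Prime ∧ IsPowFree r (N - p)) := by
  rw [shiftCount]
  congr 1
  ext p
  simp only [mem_filter, mem_Icc, mem_range]
  constructor
  · rintro ⟨⟨h1, h2⟩, hp, hf⟩
    have e : ((p : ℤ) + -(N : ℤ)).natAbs = N - p := by omega
    rw [e] at hf
    refine ⟨lt_of_le_of_ne h2 fun e => ?_, hp, hf⟩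
    rw [e, Nat.sub_self] at hf
    exact hf 2 Nat.prime_two (dvd_zero _)
  · rintro ⟨h2, hp, hf⟩
    have e : ((p : ℤ) + -(N : ℤ)).natAbs = N - p := by omega
    exact ⟨⟨hp.one_le, h2.le⟩, hp, e.symm ▸ hf⟩

end FA.SquarefreeShift
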