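import Fermat.Agent.SquarefreeShift.Series
import Fermat.Agent.Root.SummarySiegelWalfisz
import Fermat.Agent.Root.SummaryPrimeNumberTheorem
import Fermat.Agent.BombieriVinogradov.Main
import Fermat.Agent.Chen.Switching

/-!
# The shifted primes without an `r`-th power

`∑ log p` over the primes `p ≤ x` with `p + a` not divisible by any `r`-th power of a prime is
`𝔖 x + o (x)` uniformly for `0 < |a| ≤ x`: Siegel and Walfisz for `d ≤ (log x) ^ 2`, the trivial
count beyond.
-/

set_option autoImplicit false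

noncomputable section

namespace FA.SquarefreeShift

open Finset Filter
open scoped Topology ArithmeticFunction.Moebius

/-- No `r`-th power of a prime divides `n`. -/
def IsPowFree (r n : ℕ) : Prop := ∀ p : ℕ, p.Prime → ¬ p ^ r ∣ n

open scoped Classical in
/-- `∑ log p`. -/
def shiftSum (r : ℕ) (a : ℤ) (x : ℕ) : ℝ :=
  ∑ p ∈ (Icc 1 x).filter (fun p : ℕ => p.Prime ∧ IsPowFree r ((p : ℤ) + a).natAbs), Real.log p

/-- `∑_{d ^ r ∣ n} μ d`. -/
theorem sum_moebius_pow_dvd {r n M : ℕ} (hr : 1 ≤ r) (hn : 0 < n) (hM : n ≤ M)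
    [DecidablePred (IsPowFree r)] :
    (∑ d ∈ Icc 1 M, if d ^ r ∣ n then (μ d : ℝ) else 0) = if IsPowFree r n then 1 else 0 := by
  classical
  obtain ⟨S, hS⟩ : ∃ S, S = n.primeFactors.filter (fun p => p ^ r ∣ n) := ⟨_, rfl⟩
  have hSp : ∀ p ∈ S, p.Prime := fun p hp => by
    rw [hS, mem_filter] at hp
    exact Nat.prime_of_mem_primeFactors hp.1
  obtain ⟨R, hR⟩ : ∃ R, R = ∏ p ∈ S, p := ⟨_, rfl⟩
  have hR0 : R ≠ 0 := hR ▸ prod_ne_zero_iff.2 fun p hp => (hSp p hp).ne_zero
  have hRf : R.primeFactors = S := hR ▸ Nat.primeFactors_prod hSp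
  have hRn : R ^ r ∣ n := by
    have key : ∀ U : Finset ℕ, U ⊆ S → (∏ p ∈ U, p) ^ r ∣ n := by
      intro U
      induction U using Finset.induction with
      | empty => simp
      | @insert p U hp ih =>
        intro hsub
        rw [prod_insert hp, mul_pow]
        have hpS := hsub (mem_insert_self p U)
        refine Nat.Coprime.mul_dvd_of_dvd_of_dvd ?_ ?_
          (ih fun q hq => hsub (mem_insert_of_mem hq))
        · refine (Nat.Coprime.prod_right fun q hq => ?_).pow r r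
          exact (Nat.coprime_primes (hSp p hpS) (hSp q (hsub (mem_insert_of_mem hq)))).2
            fun e => hp (e ▸ hq)
        · rw [hS, mem_filter] at hpS
          exact hpS.2
    exact hR ▸ key S Subset.rfl
  have e : (∑ d ∈ Icc 1 M, if d ^ r ∣ n then (μ d : ℝ) else 0) =
      ∑ d ∈ R.divisors, (μ d : ℝ) := by
    rw [← sum_filter]
    refine (sum_subset (fun d hd => ?_) fun d hd hdR => ?_).symm
    · rw [Nat.mem_divisors] at hd
      rw [mem_filter, mem_Icc]
      have h1 : d ^ r ∣ n := (pow_dvd_pow_of_dvd hd.1 r).trans hRn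
      exact ⟨⟨Nat.pos_of_dvd_of_pos hd.1 (Nat.pos_of_ne_zero hR0),
        ((Nat.le_self_pow (by omega) d).trans (Nat.le_of_dvd hn h1)).trans hM⟩, h1⟩
    · rw [mem_filter, mem_Icc] at hd
      refine Int.cast_eq_zero.2 (ArithmeticFunction.moebius_eq_zero_of_not_squarefree fun hsq => ?_)
      refine hdR (Nat.mem_divisors.2 ⟨?_, hR0⟩)
      rw [← Nat.prod_primeFactors_of_squarefree hsq, hR]
      refine prod_dvd_prod_of_subset _ _ _ fun p hp => ?_
      have hpd := Nat.dvd_of_mem_primeFactors hp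
      rw [hS, mem_filter, Nat.mem_primeFactors]
      exact ⟨⟨Nat.prime_of_mem_primeFactors hp,
        (hpd.trans (dvd_pow_self d (by omega))).trans hd.2, hn.ne'⟩,
        (pow_dvd_pow_of_dvd hpd r).trans hd.2⟩
  rw [e, ← Int.cast_sum, ← ArithmeticFunction.coe_mul_zeta_apply,
    ArithmeticFunction.moebius_mul_coe_zeta, ArithmeticFunction.one_apply]
  by_cases h : IsPowFree r n
  · have hS0 : S = ∅ := by
      rw [hS, filter_eq_empty_iff]
      exact fun p hp => h p (Nat.prime_of_mem_primeFactors hp)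
    rw [if_pos h, if_pos (by rw [hR, hS0, prod_empty]), Int.cast_one]
  · rw [if_neg h, if_neg fun h1 => h fun p hp hpn => ?_, Int.cast_zero]
    have hpS : p ∈ S := by
      rw [hS, mem_filter, Nat.mem_primeFactors]
      exact ⟨⟨hp, (dvd_pow_self p (by omega)).trans hpn, hn.ne'⟩, hpn⟩
    rw [← hRf, h1] at hpS
    simp at hpS

theorem zmod_cast_eq_iff (q p : ℕ) (a : ℤ) :
    q ∣ ((p : ℤ) + a).natAbs ↔ ((p : ℕ) : ZMod q) = ((-a : ℤ) : ZMod q) := by
  rw [← Int.natCast_dvd, ← ZMod.intCast_zmod_eq_zero_iff_dvd, Int.cast_add, Int.cast_natCast,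
    Int.cast_neg, add_eq_zero_iff_eq_neg]

/-- The primes of one class. -/
def classTheta (q x : ℕ) (a : ℤ) : ℝ :=
  ∑ p ∈ (Icc 1 x).filter (fun p : ℕ => p.Prime ∧ q ∣ ((p : ℤ) + a).natAbs), Real.log p

theorem card_dvd_le {q : ℕ} (hq : 0 < q) (x : ℕ) (a : ℤ) :
    #((Icc 1 x).filter fun p : ℕ => q ∣ ((p : ℤ) + a).natAbs) ≤ x / q + 1 := by
  classical
  refine (card_le_card_of_injOn (t := range (x / q + 1)) (fun p => p / q) (fun p hp => ?_)
    fun p hp p' hp' e => ?_).trans (le_of_eq (card_range _))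
  · rw [coe_filter] at hp
    exact mem_range.2 (Nat.lt_succ_of_le (Nat.div_le_div_right (mem_Icc.1 hp.1).2))
  · rw [coe_filter] at hp hp'
    have h1 := (zmod_cast_eq_iff q p a).1 hp.2
    rw [← (zmod_cast_eq_iff q p' a).1 hp'.2, ZMod.natCast_eq_natCast_iff'] at h1
    rw [← Nat.div_add_mod p q, ← Nat.div_add_mod p' q, h1]
    simp only at e
    rw [e]

/-- A class not prime to its modulus. -/
theorem classTheta_le_log {r d x : ℕ} (hr : 1 ≤ r) (hd : 0 < d) {a : ℤ}
    (h : ¬ d.Coprime a.natAbs) : classTheta (d ^ r) x a ≤ Real.log d := by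
  obtain ⟨q, hq, hqd, hqa⟩ := Nat.Prime.not_coprime_iff_dvd.1 h
  refine CombinatorialSieve.sum_log_dvd_le hd.ne' fun p hp => ?_
  rw [mem_filter] at hp
  refine ⟨hp.2.1, ?_⟩
  have h1 : (q : ℤ) ∣ (p : ℤ) + a :=
    Int.natCast_dvd.2 ((hqd.trans (dvd_pow_self d (by omega))).trans hp.2.2)
  have h2 : q ∣ p := Int.natCast_dvd_natCast.1
    ((Int.dvd_add_left (Int.natCast_dvd.2 hqa)).1 h1)
  rwa [← (Nat.prime_dvd_prime_iff_eq hq hp.2.1).1 h2]

/-- **The asymptotic formula for `∑ log p`.** -/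
theorem eventually_shiftSum {r : ℕ} (hr : 2 ≤ r) {ε : ℝ} (hε : 0 < ε) :
    ∀ᶠ x : ℕ in atTop, ∀ a : ℤ, a ≠ 0 → a.natAbs ≤ x →
      |shiftSum r a x - shiftDensity r a.natAbs * x| ≤ ε * x := by
  classical
  obtain ⟨c, C, hc, hC, hSW⟩ := SiegelWalfisz.Summary.siegel_walfisz_theta ((2 * r : ℕ) + 1 : ℝ)
    (by positivity)
  obtain ⟨K, hK, hexp⟩ := SiegelWalfisz.exp_gauge_le (3 : ℝ) (by norm_num) hc
  obtain ⟨k₀, hk₀⟩ := ((_root_.tendsto_sum_nat_add
    PrimesMinusOne.divisorWeight).eventually (Metric.ball_mem_nhds _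
      (show 0 < ε / 6 by linarith))).exists
  filter_upwards [eventually_ge_atTop 3,
    BombieriVinogradov.eventually_log_ge (max (max 2 (k₀ : ℝ)) (max (6 * C * K / ε) (18 / ε))),
    Chen.eventually_power_saving (show 0 < ε / 6 by linarith)
      (show (1 / 2 : ℝ) < 1 by norm_num) 4 8,
    BombieriVinogradov.eventually_log_pow_le 2 one_pos] with x hx hlarge hpow hLx a ha hax
  obtain ⟨L, hL⟩ : ∃ L, L = Real.log x := ⟨_, rfl⟩
  rw [← hL] at hlarge hpow hLx
  rw [Real.rpow_one] at hLx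
  have hL2 : 2 ≤ L := ((le_max_left _ _).trans (le_max_left _ _)).trans hlarge
  have hLk : (k₀ : ℝ) ≤ L := ((le_max_right _ _).trans (le_max_left _ _)).trans hlarge
  have hLC : 6 * C * K / ε ≤ L := ((le_max_left _ _).trans (le_max_right _ _)).trans hlarge
  have hL18 : 18 / ε ≤ L := ((le_max_right _ _).trans (le_max_right _ _)).trans hlarge
  have hx0 : (0 : ℝ) < x := Nat.cast_pos.2 (by omega)
  have hx1 : (1 : ℝ) ≤ x := Nat.one_le_cast.2 (by omega)
  obtain ⟨m, hm⟩ : ∃ m, m = a.natAbs := ⟨_, rfl⟩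
  rw [← hm] at hax ⊢
  obtain ⟨P, hP⟩ : ∃ P, P = (Icc 1 x).filter (fun p : ℕ => p.Prime ∧ ((p : ℤ) + a).natAbs ≠ 0) :=
    ⟨_, rfl⟩
  obtain ⟨T, hT⟩ : ∃ T : ℕ → ℝ, T = fun d =>
      ∑ p ∈ P.filter (fun p : ℕ => d ^ r ∣ ((p : ℤ) + a).natAbs), Real.log p := ⟨_, rfl⟩
  have hlog : ∀ p ∈ Icc 1 x, Real.log p ≤ L := fun p hp => hL ▸
    Real.log_le_log (Nat.cast_pos.2 (mem_Icc.1 hp).1) (Nat.cast_le.2 (mem_Icc.1 hp).2)
  have hsum : shiftSum r a x = ∑ d ∈ Icc 1 (2 * x), (μ d : ℝ) * T d := by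
    simp only [hT, mul_sum]
    rw [sum_comm' (t' := P) (s' := fun p =>
      (Icc 1 (2 * x)).filter (fun d => d ^ r ∣ ((p : ℤ) + a).natAbs))
        (fun d p => by simp only [mem_filter]; tauto), shiftSum]
    rw [sum_congr rfl fun p hp => (sum_mul _ _ _).symm, sum_filter]
    rw [hP, sum_filter]
    refine sum_congr rfl fun p hp => ?_
    by_cases hpp : p.Prime
    · by_cases h0 : ((p : ℤ) + a).natAbs = 0
      · rw [if_neg fun h => h.2 p hpp (h0 ▸ dvd_zero _), if_neg fun h => h.2 h0]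
      · rw [if_pos (show p.Prime ∧ _ from ⟨hpp, h0⟩), sum_filter,
          sum_moebius_pow_dvd (by omega) (Nat.pos_of_ne_zero h0)]
        · by_cases h : IsPowFree r ((p : ℤ) + a).natAbs <;> simp [h, hpp]
        · have := Int.natAbs_add_le (p : ℤ) a
          have := (mem_Icc.1 hp).2
          simp only [Int.natAbs_natCast] at *
          omega
    · rw [if_neg fun h => hpp h.1, if_neg fun h => hpp h.1]
  obtain ⟨D, hD⟩ : ∃ D, D = ⌊L ^ 2⌋₊ := ⟨_, rfl⟩
  have hL4 : (4 : ℝ) ≤ L ^ 2 := by nlinarith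
  have hD1 : L ^ 2 / 2 ≤ D := by
    have := Nat.lt_floor_add_one (L ^ 2)
    rw [← hD] at this
    linarith
  have hDL : (D : ℝ) ≤ L ^ 2 := hD ▸ Nat.floor_le (by positivity)
  have hkD : k₀ ≤ D + 1 := by
    have h1 : L ≤ L ^ 2 / 2 := by nlinarith
    have : (k₀ : ℝ) ≤ ((D + 1 : ℕ) : ℝ) := by push_cast; linarith
    exact Nat.cast_le.1 this
  have hTθ : ∀ d, T d ≤ classTheta (d ^ r) x a ∧ classTheta (d ^ r) x a ≤ T d + L := by
    intro d
    rw [hT, classTheta]
    refine ⟨sum_le_sum_of_subset_of_nonneg (fun p hp => ?_) fun p _ _ => Real.log_natCast_nonneg p,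
      ?_⟩
    · rw [hP, mem_filter, mem_filter] at hp
      exact mem_filter.2 ⟨hp.1.1, hp.1.2.1, hp.2⟩
    rw [← sum_filter_add_sum_filter_not ((Icc 1 x).filter
      (fun p : ℕ => p.Prime ∧ d ^ r ∣ ((p : ℤ) + a).natAbs)) (fun p => ((p : ℤ) + a).natAbs ≠ 0)]
    refine add_le_add (le_of_eq (sum_congr ?_ fun _ _ => rfl)) ?_
    · rw [hP, filter_filter, filter_filter]
      exact filter_congr fun p _ => by tauto
    · refine (sum_le_card_nsmul _ _ L
        fun p hp => hlog p (mem_filter.1 (mem_filter.1 hp).1).1).trans ?_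
      rw [nsmul_eq_mul]
      refine mul_le_of_le_one_left (by linarith)
        (Nat.cast_le_one.2 (card_le_one.2 fun p hp p' hp' => ?_))
      simp only [mem_filter, ne_eq, not_not, Int.natAbs_eq_zero] at hp hp'
      omega
  have hclass : ∀ d ∈ Icc 1 D,
      |(μ d : ℝ) * T d - shiftTerm r m d * x| ≤ C * K * x / L ^ 3 + 2 * L := by
    intro d hd
    have hd0 : 0 < d := (mem_Icc.1 hd).1
    have hdx : d ≤ x := by
      have h1 : (d : ℝ) ≤ L ^ 2 := (Nat.cast_le.2 (mem_Icc.1 hd).2).trans hDL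
      exact Nat.cast_le.1 (h1.trans hLx)
    have hμ : |(μ d : ℝ)| ≤ 1 := by exact_mod_cast ArithmeticFunction.abs_moebius_le_one
    have hnn : 0 ≤ C * K * x / L ^ 3 := by positivity
    have hld : Real.log d ≤ L := hlog d (mem_Icc.2 ⟨hd0, hdx⟩)
    have hT0 : 0 ≤ T d := hT ▸ sum_nonneg fun p _ => Real.log_natCast_nonneg p
    rw [shiftTerm_apply]
    split_ifs with hcop
    · have : NeZero (d ^ r) := ⟨(pow_pos hd0 r).ne'⟩
      have hu : IsUnit ((-a : ℤ) : ZMod (d ^ r)) := by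
        rw [ZMod.coe_int_isUnit_iff_isCoprime, Int.isCoprime_iff_nat_coprime, Int.natAbs_natCast,
          Int.natAbs_neg, ← hm]
        exact hcop.pow_left r
      have hq : ((d ^ r : ℕ) : ℝ) ≤ Real.log x ^ ((2 * r : ℕ) + 1 : ℝ) := by
        rw [← hL, Real.rpow_add (by linarith), Real.rpow_natCast, Real.rpow_one, Nat.cast_pow,
          pow_mul]
        refine (pow_le_pow_left₀ (Nat.cast_nonneg d)
          ((Nat.cast_le.2 (mem_Icc.1 hd).2).trans hDL) r).trans ?_
        exact le_mul_of_one_le_right (by positivity) (by linarith)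
      have h1 := hSW (d ^ r) ((-a : ℤ) : ZMod (d ^ r)) hu x (Nat.ofNat_le_cast.2 (by omega)) hq
      rw [Nat.floor_natCast, ← hL] at h1
      have e : ∑ p ∈ (Icc 1 x).filter (fun p : ℕ => p.Prime ∧
          ((p : ℕ) : ZMod (d ^ r)) = ((-a : ℤ) : ZMod (d ^ r))),
          Real.log p = classTheta (d ^ r) x a := by
        rw [classTheta]
        refine sum_congr (filter_congr fun p _ => ?_) fun _ _ => rfl
        rw [zmod_cast_eq_iff]
      rw [e] at h1
      have h2 : C * (x : ℝ) * Real.exp (-(c * SiegelWalfisz.gauge x)) ≤ C * K * x / L ^ 3 := by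
        have h3 := hexp x (Nat.ofNat_le_cast.2 (by omega))
        rw [← hL, Real.rpow_ofNat] at h3
        refine (mul_le_mul_of_nonneg_left h3 (by positivity)).trans (le_of_eq ?_)
        ring
      have h4 : |T d - x / (d ^ r).totient| ≤ C * K * x / L ^ 3 + 2 * L := by
        unfold SiegelWalfisz.gauge at h2
        rw [← hL] at h2
        have h5 := abs_le.1 (h1.trans h2)
        rw [abs_le]
        constructor <;> linarith [(hTθ d).1, (hTθ d).2]
      rw [show (μ d : ℝ) * T d - (μ d : ℝ) / ((d ^ r).totient : ℕ) * x =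
        (μ d : ℝ) * (T d - x / ((d ^ r).totient : ℕ)) by ring, abs_mul]
      exact (mul_le_of_le_one_left (abs_nonneg _) hμ).trans h4
    · rw [zero_mul, sub_zero, abs_mul, abs_of_nonneg hT0]
      refine (mul_le_of_le_one_left hT0 hμ).trans ?_
      have := classTheta_le_log (x := x) (show 1 ≤ r by omega) hd0 (hm ▸ hcop)
      linarith [(hTθ d).1]
  have hD2x : D ≤ 2 * x := by
    have h1 : (D : ℝ) ≤ x := hDL.trans hLx
    have h2 : D ≤ x := Nat.cast_le.1 h1
    omega
  have htail : |∑ d ∈ Ioc D (2 * x), (μ d : ℝ) * T d| ≤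
      2 * x / L + 2 * L * (x : ℝ) ^ (1 / 2 : ℝ) := by
    obtain ⟨W, hW⟩ : ∃ W, W = ⌊√(2 * (x : ℝ))⌋₊ := ⟨_, rfl⟩
    refine (abs_sum_le_sum_abs _ _).trans ((sum_le_sum (g := fun d : ℕ =>
      L * (x * ((d : ℝ) ^ 2)⁻¹) + if d ≤ W then L else 0) fun d hd => ?_).trans ?_)
    · rw [mem_Ioc] at hd
      have hT0 : 0 ≤ T d := hT ▸ sum_nonneg fun p _ => Real.log_natCast_nonneg p
      rw [abs_mul, abs_of_nonneg hT0]
      refine (mul_le_of_le_one_left hT0
        (by exact_mod_cast ArithmeticFunction.abs_moebius_le_one)).trans ?_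
      by_cases hdW : d ≤ W
      · rw [if_pos hdW, hT]
        refine (sum_le_card_nsmul _ _ L fun p hp => hlog p
          (mem_filter.1 (hP ▸ (mem_filter.1 hp).1)).1).trans ?_
        rw [nsmul_eq_mul]
        refine (mul_le_mul_of_nonneg_right ((Nat.cast_le.2 (card_le_card (t := (Icc 1 x).filter
          fun p : ℕ => d ^ r ∣ ((p : ℤ) + a).natAbs) fun p hp => ?_)).trans (Nat.cast_le.2
            (card_dvd_le (pow_pos (show 0 < d by omega) r) x a))) (by linarith)).trans ?_
        · rw [hP, mem_filter, mem_filter] at hp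
          exact mem_filter.2 ⟨hp.1.1, hp.2⟩
        · push_cast
          rw [add_mul, one_mul, mul_comm _ L, ← div_eq_mul_inv (x : ℝ)]
          refine add_le_add
            (mul_le_mul_of_nonneg_left (Nat.cast_div_le.trans ?_) (by linarith)) le_rfl
          push_cast
          exact div_le_div_of_nonneg_left hx0.le (by
            have : (0 : ℝ) < d := Nat.cast_pos.2 (by omega)
            positivity) (pow_le_pow_right₀ (Nat.one_le_cast.2 (show 1 ≤ d by omega)) hr)
      · rw [if_neg hdW, add_zero, hT]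
        refine le_of_eq_of_le (sum_eq_zero fun p hp => ?_) (by positivity)
        rw [hP, mem_filter, mem_filter, mem_Icc] at hp
        exfalso
        refine hdW (hW ▸ Nat.le_floor (Real.le_sqrt_of_sq_le ?_))
        have h1 := Nat.le_of_dvd (Nat.pos_of_ne_zero hp.1.2.2) hp.2
        have h2 := Int.natAbs_add_le (p : ℤ) a
        have h3 : d ^ 2 ≤ d ^ r := Nat.pow_le_pow_right (by omega) hr
        simp only [Int.natAbs_natCast] at h2
        exact_mod_cast (show d ^ 2 ≤ 2 * x by omega)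
    · rw [sum_add_distrib, ← mul_sum, ← mul_sum, ← sum_filter, sum_const, nsmul_eq_mul]
      refine add_le_add ?_ ?_
      · have h1 := sum_Ioc_inv_sq_le_sub (α := ℝ) (k := D) (n := 2 * x)
          (Nat.one_le_iff_ne_zero.1 (Nat.cast_pos.1 (lt_of_lt_of_le (by positivity) hD1))) hD2x
        refine (mul_le_mul_of_nonneg_left (mul_le_mul_of_nonneg_left (h1.trans
          (sub_le_self _ (by positivity))) hx0.le) (by linarith)).trans ?_
        refine (mul_le_mul_of_nonneg_left (mul_le_mul_of_nonneg_left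
          (inv_anti₀ (by positivity) hD1) hx0.le) (by linarith)).trans (le_of_eq ?_)
        field_simp
      · rw [mul_comm (2 : ℝ) L, mul_assoc, mul_comm _ L]
        refine mul_le_mul_of_nonneg_left ?_ (by linarith)
        refine (Nat.cast_le.2 (card_le_card (t := Icc 1 W) fun d hd => ?_)).trans ?_
        · rw [mem_filter, mem_Ioc] at hd
          exact mem_Icc.2 ⟨by omega, hd.2⟩
        · rw [Nat.card_Icc, Nat.add_sub_cancel, hW]
          refine (Nat.floor_le (Real.sqrt_nonneg _)).trans ?_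
          rw [Real.sqrt_mul two_pos.le, ← Real.sqrt_eq_rpow]
          refine mul_le_mul_of_nonneg_right ?_ (Real.sqrt_nonneg _)
          rw [Real.sqrt_le_left two_pos.le]
          norm_num
  have hser : |shiftDensity r m - ∑ d ∈ Icc 1 D, shiftTerm r m d| ≤ ε / 6 := by
    have hs := Summable.of_norm (summable_abs_shiftTerm hr m)
    have e : ∑ d ∈ Icc 1 D, shiftTerm r m d = ∑ d ∈ range (D + 1), shiftTerm r m d := by
      rw [range_eq_Ico, sum_eq_sum_Ico_succ_bot (Nat.succ_pos D), ArithmeticFunction.map_zero,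
        zero_add]
      rfl
    rw [e, shiftDensity, ← hs.sum_add_tsum_nat_add (D + 1), add_sub_cancel_left]
    rw [← Real.norm_eq_abs]
    refine (tsum_of_norm_bounded (f := fun i => shiftTerm r m (i + (D + 1)))
      (((summable_nat_add_iff (D + 1)).2 PrimesMinusOne.summable_divisorWeight).hasSum)
      fun i => abs_shiftTerm_le hr m _).trans ?_
    simp only [Real.dist_eq, sub_zero] at hk₀
    refine le_trans ?_ ((le_abs_self _).trans hk₀.le)
    obtain ⟨j, hj⟩ : ∃ j, D + 1 = j + k₀ := ⟨D + 1 - k₀, by omega⟩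
    rw [hj]
    have hk := (summable_nat_add_iff k₀).2 PrimesMinusOne.summable_divisorWeight
    refine le_of_eq_of_le (tsum_congr (g := fun i => PrimesMinusOne.divisorWeight (i + j + k₀))
      fun i => by rw [add_assoc]) ?_
    exact tsum_comp_le_tsum_of_inj hk (fun i => PrimesMinusOne.divisorWeight_nonneg _)
      (add_left_injective j)
  have hIcc : Icc 1 (2 * x) = Ioc 0 (2 * x) := rfl
  rw [hsum, hIcc, ← sum_Ioc_consecutive _ (Nat.zero_le D) hD2x, show Ioc 0 D = Icc 1 D from rfl]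
  have hmain : |∑ d ∈ Icc 1 D, (μ d : ℝ) * T d - (∑ d ∈ Icc 1 D, shiftTerm r m d) * x| ≤
      L ^ 2 * (C * K * x / L ^ 3 + 2 * L) := by
    rw [sum_mul, ← sum_sub_distrib]
    refine (abs_sum_le_sum_abs _ _).trans ((sum_le_card_nsmul _ _ _ hclass).trans ?_)
    rw [Nat.card_Icc, Nat.add_sub_cancel, nsmul_eq_mul]
    exact mul_le_mul_of_nonneg_right hDL (by positivity)
  have h1 : L ^ 2 * (C * K * x / L ^ 3) ≤ ε / 6 * x := by
    rw [show L ^ 2 * (C * K * x / L ^ 3) = C * K / L * x by field_simp]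
    refine mul_le_mul_of_nonneg_right ?_ hx0.le
    rw [div_le_iff₀ (by linarith)]
    rw [div_le_iff₀ hε] at hLC
    linarith
  have h2 : 2 * (x : ℝ) / L ≤ ε / 6 * x := by
    rw [div_le_iff₀ (by linarith)]
    rw [div_le_iff₀ hε] at hL18
    have := mul_le_mul_of_nonneg_right hL18 hx0.le
    linarith
  have h3 : 2 * L * (x : ℝ) ^ (1 / 2 : ℝ) + L ^ 2 * (2 * L) ≤ ε / 6 * x := by
    refine le_trans ?_ hpow
    have hs : (1 : ℝ) ≤ (x : ℝ) ^ (1 / 2 : ℝ) := Real.one_le_rpow hx1 (by norm_num)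
    have h4 : L ≤ L ^ 4 := le_self_pow₀ (by linarith) (by norm_num)
    have h5 : L ^ 3 ≤ L ^ 4 := pow_le_pow_right₀ (by linarith) (by norm_num)
    nlinarith
  have h6 := mul_le_mul_of_nonneg_right hser hx0.le
  rw [← abs_of_pos hx0, ← abs_mul, abs_of_pos hx0] at h6
  rw [abs_le]
  have := abs_le.1 hmain
  have := abs_le.1 htail
  have := abs_le.1 h6
  constructor <;> linarith [mul_nonneg (show 0 ≤ ε / 6 by linarith) hx0.le]

end FA.SquarefreeShift
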