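import Fermat.Agent.PrimesMinusOne.TotientSum
import Mathlib.NumberTheory.EulerProduct.Basic
import Mathlib.NumberTheory.ArithmeticFunction.Moebius

/-!
# The density of the shifted primes without an `r`-th power

`∑_{(d, m) = 1} μ d / φ (d ^ r) = ∏_{p ∤ m} (1 - 1 / (p ^ (r - 1) (p - 1))) ≥ 1/4` for `r ≥ 2`.
-/

set_option autoImplicit false

noncomputable section

namespace FA.SquarefreeShift

open Finset Filter
open scoped Topology ArithmeticFunction.Moebius

/-- `μ d / φ (d ^ r)` for `d` prime to `m`. -/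
def shiftTerm (r m : ℕ) : ArithmeticFunction ℝ :=
  ⟨fun d => if d.Coprime m then (μ d : ℝ) / ((d ^ r).totient : ℕ) else 0, by simp⟩

theorem shiftTerm_apply (r m d : ℕ) :
    shiftTerm r m d = if d.Coprime m then (μ d : ℝ) / ((d ^ r).totient : ℕ) else 0 := rfl

/-- The density. -/
def shiftDensity (r m : ℕ) : ℝ := ∑' d, shiftTerm r m d

theorem shiftTerm_isMultiplicative (r m : ℕ) : (shiftTerm r m).IsMultiplicative := by
  refine ⟨by simp [shiftTerm_apply], fun {a b} hab => ?_⟩
  simp only [shiftTerm_apply, Nat.coprime_mul_iff_left,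
    ArithmeticFunction.isMultiplicative_moebius.map_mul_of_coprime hab, mul_pow,
    Nat.totient_mul (hab.pow r r)]
  by_cases ha : a.Coprime m <;> by_cases hb : b.Coprime m
  · rw [if_pos ⟨ha, hb⟩, if_pos ha, if_pos hb, div_mul_div_comm]
    push_cast
    rfl
  · rw [if_neg (fun h => hb h.2), if_neg hb, mul_zero]
  · rw [if_neg (fun h => ha h.1), if_neg ha, zero_mul]
  · rw [if_neg (fun h => ha h.1), if_neg ha, zero_mul]

theorem totient_sq (d : ℕ) : (d ^ 2).totient = d * d.totient := by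
  rcases Nat.eq_zero_or_pos d with rfl | hd
  · simp
  have h := Nat.totient_gcd_mul_totient_mul d d
  rw [Nat.gcd_self] at h
  rw [sq]
  refine Nat.eq_of_mul_eq_mul_left (Nat.totient_pos.2 hd) (h.trans ?_)
  ring

theorem abs_shiftTerm_le {r : ℕ} (hr : 2 ≤ r) (m d : ℕ) :
    |shiftTerm r m d| ≤ PrimesMinusOne.divisorWeight d := by
  rw [shiftTerm_apply, PrimesMinusOne.divisorWeight]
  split_ifs with h1 h2 h3
  · have hd : 0 < d := Nat.pos_of_ne_zero h2.ne_zero
    rw [abs_div, Nat.abs_cast, ← Nat.cast_mul, ← totient_sq, ← one_div]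
    refine div_le_div₀ zero_le_one (by exact_mod_cast ArithmeticFunction.abs_moebius_le_one)
      (Nat.cast_pos.2 (Nat.totient_pos.2 (pow_pos hd 2))) (Nat.cast_le.2 ?_)
    exact Nat.le_of_dvd (Nat.totient_pos.2 (pow_pos hd r))
      (Nat.totient_dvd_of_dvd (pow_dvd_pow d hr))
  · simp [ArithmeticFunction.moebius_eq_zero_of_not_squarefree h2]
  · rw [abs_zero]; positivity
  · simp

theorem summable_abs_shiftTerm {r : ℕ} (hr : 2 ≤ r) (m : ℕ) :
    Summable fun d => ‖shiftTerm r m d‖ :=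
  Summable.of_nonneg_of_le (fun _ => norm_nonneg _) (fun d => abs_shiftTerm_le hr m d)
    PrimesMinusOne.summable_divisorWeight

theorem tendsto_shiftProd {r : ℕ} (hr : 2 ≤ r) (m : ℕ) :
    Tendsto (fun k : ℕ => ∏ p ∈ k.primesBelow.filter (fun p => ¬ p ∣ m),
      (1 - 1 / ((p : ℝ) ^ (r - 1) * ((p : ℝ) - 1)))) atTop (𝓝 (shiftDensity r m)) := by
  refine ((shiftTerm_isMultiplicative r m).eulerProduct (summable_abs_shiftTerm hr m)).congr
    fun k => ?_
  rw [prod_filter]
  refine prod_congr rfl fun p hp => ?_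
  rw [Nat.mem_primesBelow] at hp
  rw [tsum_eq_sum (s := range 2) fun e he => ?_]
  · rw [sum_range_succ, sum_range_one, pow_zero, pow_one, shiftTerm_apply, shiftTerm_apply,
      if_pos (Nat.coprime_one_left m)]
    simp only [ArithmeticFunction.moebius_apply_one, one_pow, Nat.totient_one,
      ArithmeticFunction.moebius_apply_prime hp.2, Nat.totient_prime_pow hp.2 (by omega : 0 < r)]
    by_cases h : p ∣ m
    · rw [if_neg fun hc => (hp.2.coprime_iff_not_dvd.1 hc) h, if_neg (not_not.2 h)]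
      simp
    · rw [if_pos (hp.2.coprime_iff_not_dvd.2 h), if_pos h, Nat.cast_mul, Nat.cast_pow,
        Nat.cast_sub hp.2.one_le]
      push_cast
      ring
  · rw [mem_range] at he
    rw [shiftTerm_apply, ArithmeticFunction.moebius_apply_prime_pow hp.2 (by omega),
      if_neg (show ¬ e = 1 by omega)]
    simp

/-- `∏_{p < k} (1 - 1 / (p (p - 1))) ≥ 1/4`. -/
theorem quarter_le_prod (k : ℕ) :
    1 / 4 ≤ ∏ p ∈ k.primesBelow, (1 - 1 / ((p : ℝ) * ((p : ℝ) - 1))) := by
  obtain ⟨P, hP⟩ : ∃ P : ℕ → ℝ,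
      P = fun k : ℕ => ∏ p ∈ k.primesBelow, (1 - 1 / ((p : ℝ) * ((p : ℝ) - 1))) := ⟨_, rfl⟩
  have key : ∀ j : ℕ, 1 / 4 + 1 / (2 * ((j : ℝ) + 2)) ≤ P (j + 3) := by
    intro j
    induction j with
    | zero =>
      rw [hP]
      simp only [zero_add, Nat.primesBelow_succ, Nat.primesBelow_zero, Nat.not_prime_zero,
        Nat.not_prime_one, Nat.prime_two, if_false, if_true]
      norm_num
    | succ j ih =>
      have hj : (0 : ℝ) ≤ j := Nat.cast_nonneg j
      have hstep : 1 / (2 * ((j : ℝ) + 1 + 2)) ≤ 1 / (2 * ((j : ℝ) + 2)) := by gcongr; linarith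
      rw [hP] at ih ⊢
      simp only at ih ⊢
      rw [show j + 1 + 3 = (j + 3) + 1 by ring, Nat.primesBelow_succ]
      push_cast
      split_ifs with hp
      · rw [prod_insert (by simp [Nat.mem_primesBelow])]
        push_cast
        have h1 : 0 ≤ 1 - 1 / (((j : ℝ) + 3) * ((j : ℝ) + 3 - 1)) := by
          rw [sub_nonneg, div_le_one (by nlinarith)]
          nlinarith
        refine le_trans ?_ (mul_le_mul_of_nonneg_left ih h1)
        have e : (1 - 1 / (((j : ℝ) + 3) * ((j : ℝ) + 3 - 1))) * (1 / 4 + 1 / (2 * ((j : ℝ) + 2))) -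
            (1 / 4 + 1 / (2 * ((j : ℝ) + 1 + 2))) =
              j / (4 * ((j : ℝ) + 3) * ((j : ℝ) + 2) ^ 2) := by
          rw [show (j : ℝ) + 3 - 1 = (j : ℝ) + 2 by ring]
          field_simp
          ring
        linarith [show 0 ≤ (j : ℝ) / (4 * ((j : ℝ) + 3) * ((j : ℝ) + 2) ^ 2) by positivity]
      · linarith
  rcases lt_or_ge k 3 with hk | hk
  · interval_cases k <;> simp [Nat.primesBelow_succ, Nat.primesBelow_zero, Nat.not_prime_zero,
      Nat.not_prime_one] <;> norm_num
  · have := key (k - 3)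
    rw [hP, show k - 3 + 3 = k by omega] at this
    exact le_trans (le_add_of_nonneg_right (by positivity)) this

theorem quarter_le_shiftDensity {r : ℕ} (hr : 2 ≤ r) (m : ℕ) : 1 / 4 ≤ shiftDensity r m := by
  refine ge_of_tendsto' (tendsto_shiftProd hr m) fun k => (quarter_le_prod k).trans ?_
  rw [prod_filter]
  refine prod_le_prod (fun p hp => ?_) fun p hp => ?_
  all_goals
    rw [Nat.mem_primesBelow] at hp
    have h2 : (2 : ℝ) ≤ p := Nat.ofNat_le_cast.2 hp.2.two_le
    have h0 : 1 / ((p : ℝ) * ((p : ℝ) - 1)) ≤ 1 := by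
      rw [div_le_one (by nlinarith)]
      nlinarith
  · linarith
  · split_ifs with h
    · linarith [show 0 ≤ 1 / ((p : ℝ) * ((p : ℝ) - 1)) from
        div_nonneg zero_le_one (by nlinarith)]
    · refine sub_le_sub_left (one_div_le_one_div_of_le (by nlinarith) ?_) 1
      refine mul_le_mul_of_nonneg_right ?_ (by linarith)
      exact le_self_pow₀ (by linarith) (by omega)

end FA.SquarefreeShift
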